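import Mathlib

/-!
# S51, algebraic core (route "direct map to 15a1")

Pure field algebra.  Data: b-invariants `b2 b4 b6 b8` with `4*b8 = b2*b6 - b4^2`,
a 2-cycle `x1 ≠ x2` of the duplication map (`N x1 = x2 * M x1`, `N x2 = x1 * M x2`)
and a root `x3` of the 3-division polynomial.  Output: the identities that put
`(36 Q / d, ...)` on `y^2 = x (x+9) (x-16)` and that evaluate `Δ / d^3` at the
finitely many rational points of that curve.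
-/

set_option autoImplicit false

namespace Fermat.Agent.S51.H158

section Core

variable {K : Type*} [Field K]

/-- Tate-normal-form bookkeeping: everything is a polynomial identity in `δ, e, ξ`
once `B2 * e = δ^2 - 6 δ e + e^2`. -/
theorem tate_identities (δ e ξ B2 : K) (hδ : δ ≠ 0) (he : e ≠ 0)
    (hB2 : B2 * e = δ ^ 2 - 6 * δ * e + e ^ 2)
    (hψ : 3 * ξ ^ 4 + B2 * ξ ^ 3 + 3 * (δ * (δ - e)) * ξ ^ 2 + 3 * (δ ^ 2 * e) * ξ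
      + -(δ ^ 3 * e) = 0)
    (c4 Δ S : K)
    (hc4 : c4 = B2 ^ 2 - 24 * (δ * (δ - e)))
    (hΔ : Δ = -(B2 ^ 2) * (-(δ ^ 3 * e)) - 8 * (δ * (δ - e)) ^ 3 - 27 * (δ ^ 2 * e) ^ 2
      + 9 * B2 * (δ * (δ - e)) * (δ ^ 2 * e))
    (hS : S * δ = ξ ^ 3 * (4 * δ ^ 3 + B2 * δ ^ 2 + 2 * (δ * (δ - e)) * δ + δ ^ 2 * e)
      - (ξ - δ) ^ 3 * (δ ^ 2 * e)) :
    c4 * (δ ^ 2) ^ 5 = Δ ^ 2 + 10 * Δ * (δ ^ 2) ^ 3 + 5 * (δ ^ 2) ^ 6 ∧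
    S ^ 2 = (ξ * (ξ - δ)) ^ 3 * (9 * (ξ * (ξ - δ)) - 4 * δ ^ 2) * δ ^ 2 ∧
    ξ * (ξ - δ) ≠ 0 ∧
    (4 * (ξ * (ξ - δ)) + δ ^ 2 = 0 → 2 * Δ + 25 * (δ ^ 2) ^ 3 = 0) ∧
    (9 * (ξ * (ξ - δ)) = 4 * δ ^ 2 → 8 * Δ + 25 * (δ ^ 2) ^ 3 = 0) ∧
    (ξ * (ξ - δ) = δ ^ 2 → Δ * (Δ + 10 * (δ ^ 2) ^ 3) = 0) ∧
    (9 * (ξ * (ξ - δ)) + δ ^ 2 = 0 → Δ * (Δ + 40 * (δ ^ 2) ^ 3) = 0) := by
  -- polynomial forms
  have hψe : 3 * e * ξ ^ 4 + (δ ^ 2 - 6 * δ * e + e ^ 2) * ξ ^ 3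
      + 3 * δ * (δ - e) * e * ξ ^ 2 + 3 * δ ^ 2 * e ^ 2 * ξ - δ ^ 3 * e ^ 2 = 0 := by
    linear_combination e * hψ - ξ ^ 3 * hB2
  have hc4e : c4 * e ^ 2 = δ ^ 4 - 12 * δ ^ 3 * e + 14 * δ ^ 2 * e ^ 2 + 12 * δ * e ^ 3 + e ^ 4 := by
    rw [hc4]
    linear_combination (B2 * e + (δ ^ 2 - 6 * δ * e + e ^ 2)) * hB2
  have hΔe : Δ * e = δ ^ 5 * (δ ^ 2 - 11 * δ * e - e ^ 2) := by
    rw [hΔ]
    linear_combination (δ ^ 3 * (B2 * e + (δ ^ 2 - 6 * δ * e + e ^ 2)) + 9 * δ ^ 3 * (δ - e) * e) * hB2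
  have hSe : S * e = ξ ^ 3 * δ ^ 3 - (ξ - δ) ^ 3 * δ * e ^ 2 := by
    have h : δ * (S * e) = δ * (ξ ^ 3 * δ ^ 3 - (ξ - δ) ^ 3 * δ * e ^ 2) := by
      linear_combination e * hS + ξ ^ 3 * δ ^ 2 * hB2
    exact mul_left_cancel₀ hδ h
  have he2 : e ^ 2 ≠ 0 := pow_ne_zero 2 he
  refine ⟨?_, ?_, ?_, ?_, ?_, ?_, ?_⟩
  · -- T1
    have h : e ^ 2 * (c4 * (δ ^ 2) ^ 5) = e ^ 2 * (Δ ^ 2 + 10 * Δ * (δ ^ 2) ^ 3 + 5 * (δ ^ 2) ^ 6) := by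
      linear_combination δ ^ 10 * hc4e
        - (Δ * e + δ ^ 5 * (δ ^ 2 - 11 * δ * e - e ^ 2) + 10 * e * δ ^ 6) * hΔe
    exact mul_left_cancel₀ he2 h
  · -- T2
    have h : e ^ 2 * S ^ 2
        = e ^ 2 * ((ξ * (ξ - δ)) ^ 3 * (9 * (ξ * (ξ - δ)) - 4 * δ ^ 2) * δ ^ 2) := by
      linear_combination (S * e + (ξ ^ 3 * δ ^ 3 - (ξ - δ) ^ 3 * δ * e ^ 2)) * hSe
        + δ ^ 2 * (δ ^ 2 * ξ ^ 3 + e ^ 2 * (ξ - δ) ^ 3 - 3 * e * ξ ^ 2 * (ξ - δ) ^ 2) * hψe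
    exact mul_left_cancel₀ he2 h
  · -- Q ≠ 0
    intro hQ
    rcases mul_eq_zero.mp hQ with h0 | h0
    · -- ξ = 0
      have : δ ^ 3 * e ^ 2 = 0 := by
        have := hψe
        rw [h0] at this
        linear_combination -this
      exact (mul_ne_zero (pow_ne_zero 3 hδ) he2) this
    · -- ξ = δ
      have hξ : ξ = δ := sub_eq_zero.mp h0
      have : δ ^ 5 = 0 := by
        have := hψe
        rw [hξ] at this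
        linear_combination this
      exact (pow_ne_zero 5 hδ) this
  · -- case A
    intro hA
    have h2 : 2 * ξ - δ = 0 := by
      have : (2 * ξ - δ) ^ 2 = 0 := by linear_combination hA
      exact pow_eq_zero_iff (two_ne_zero) |>.mp this
    have h3 : δ ^ 3 * (2 * δ ^ 2 + 3 * δ * e - 2 * e ^ 2) = 0 := by
      linear_combination 16 * hψe - (24 * ξ ^ 3 * e + 8 * ξ ^ 2 * δ ^ 2 - 36 * ξ ^ 2 * δ * e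
        + 8 * ξ ^ 2 * e ^ 2 + 4 * ξ * δ ^ 3 + 6 * ξ * δ ^ 2 * e - 20 * ξ * δ * e ^ 2 + 2 * δ ^ 4
        + 3 * δ ^ 3 * e + 14 * δ ^ 2 * e ^ 2) * h2
    have h4 : e * (2 * Δ + 25 * (δ ^ 2) ^ 3) = e * 0 := by
      linear_combination 2 * hΔe + δ ^ 2 * h3
    exact mul_left_cancel₀ he h4
  · -- case B
    intro hB
    have hfac : (3 * ξ - 4 * δ) * (3 * ξ + δ) = 0 := by linear_combination hB
    rcases mul_eq_zero.mp hfac with h0 | h0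
    · have h3 : δ ^ 3 * (8 * δ + e) ^ 2 = 0 := by
        linear_combination 27 * hψe - (27 * ξ ^ 3 * e + 9 * ξ ^ 2 * δ ^ 2 - 18 * ξ ^ 2 * δ * e
          + 9 * ξ ^ 2 * e ^ 2 + 12 * ξ * δ ^ 3 + 3 * ξ * δ ^ 2 * e - 15 * ξ * δ * e ^ 2
          + 16 * δ ^ 4 + 4 * δ ^ 3 * e + 7 * δ ^ 2 * e ^ 2) * h0
      have h5 : 8 * δ + e = 0 := by
        rcases mul_eq_zero.mp h3 with h | h
        · exact absurd h (pow_ne_zero 3 hδ)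
        · exact pow_eq_zero_iff (two_ne_zero) |>.mp h
      have h4 : e * (8 * Δ + 25 * (δ ^ 2) ^ 3) = e * 0 := by
        linear_combination 8 * hΔe + δ ^ 5 * (δ - 8 * e) * h5
      exact mul_left_cancel₀ he h4
    · have h3 : δ ^ 3 * (δ - 8 * e) ^ 2 = 0 := by
        linear_combination -27 * hψe + (27 * ξ ^ 3 * e + 9 * ξ ^ 2 * δ ^ 2 - 63 * ξ ^ 2 * δ * e
          + 9 * ξ ^ 2 * e ^ 2 - 3 * ξ * δ ^ 3 + 48 * ξ * δ ^ 2 * e - 30 * ξ * δ * e ^ 2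
          + δ ^ 4 - 16 * δ ^ 3 * e + 37 * δ ^ 2 * e ^ 2) * h0
      have h5 : δ - 8 * e = 0 := by
        rcases mul_eq_zero.mp h3 with h | h
        · exact absurd h (pow_ne_zero 3 hδ)
        · exact pow_eq_zero_iff (two_ne_zero) |>.mp h
      have h4 : e * (8 * Δ + 25 * (δ ^ 2) ^ 3) = e * 0 := by
        linear_combination 8 * hΔe + δ ^ 5 * (8 * δ + e) * h5
      exact mul_left_cancel₀ he h4
  · -- case C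
    intro hC
    have hq : ξ ^ 2 - δ * ξ - δ ^ 2 = 0 := by linear_combination hC
    have hR : δ ^ 6 * ((δ ^ 2 - δ * e - e ^ 2) * (δ ^ 2 - 11 * δ * e - e ^ 2)) = 0 := by
      linear_combination
        -(-2 * ξ * δ ^ 4 - 2 * ξ * δ ^ 2 * e ^ 2 + 3 * δ ^ 5 + 3 * δ ^ 4 * e - δ ^ 3 * e ^ 2) * hψe
        - (6 * ξ ^ 3 * δ ^ 4 * e + 6 * ξ ^ 3 * δ ^ 2 * e ^ 3 + 2 * ξ ^ 2 * δ ^ 6
          - 15 * ξ ^ 2 * δ ^ 5 * e - 5 * ξ ^ 2 * δ ^ 4 * e ^ 2 - 3 * ξ ^ 2 * δ ^ 3 * e ^ 3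
          + 2 * ξ ^ 2 * δ ^ 2 * e ^ 4 - ξ * δ ^ 7 + 12 * ξ * δ ^ 6 * e + 5 * ξ * δ ^ 5 * e ^ 2
          - 3 * ξ * δ ^ 3 * e ^ 4 + δ ^ 8 - 12 * δ ^ 7 * e + 6 * δ ^ 6 * e ^ 2 + 9 * δ ^ 5 * e ^ 3
          + 2 * δ ^ 4 * e ^ 4) * hq
    have h4 : e ^ 2 * (Δ * (Δ + 10 * (δ ^ 2) ^ 3)) = e ^ 2 * 0 := by
      linear_combination (Δ * e + 10 * e * δ ^ 6 + δ ^ 5 * (δ ^ 2 - 11 * δ * e - e ^ 2)) * hΔe
        + δ ^ 4 * hR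
    exact mul_left_cancel₀ he2 h4
  · -- case D
    intro hD
    have hq : 9 * ξ ^ 2 - 9 * δ * ξ + δ ^ 2 = 0 := by linear_combination hD
    have hR : δ ^ 6 * ((δ ^ 2 + 29 * δ * e - e ^ 2) * (δ ^ 2 - 11 * δ * e - e ^ 2)) = 0 := by
      linear_combination
        (-648 * ξ * δ ^ 4 - 648 * ξ * δ ^ 2 * e ^ 2 + 567 * δ ^ 5 + 27 * δ ^ 4 * e
          + 81 * δ ^ 3 * e ^ 2) * hψe
        + (216 * ξ ^ 3 * δ ^ 4 * e + 216 * ξ ^ 3 * δ ^ 2 * e ^ 3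
          + 72 * ξ ^ 2 * δ ^ 6 - 405 * ξ ^ 2 * δ ^ 5 * e + 135 * ξ ^ 2 * δ ^ 4 * e ^ 2
          - 243 * ξ ^ 2 * δ ^ 3 * e ^ 3 + 72 * ξ ^ 2 * δ ^ 2 * e ^ 4 + 9 * ξ * δ ^ 7
          + 162 * ξ * δ ^ 6 * e - 135 * ξ * δ ^ 5 * e ^ 2 - 153 * ξ * δ ^ 3 * e ^ 4
          + δ ^ 8 + 18 * δ ^ 7 * e + 246 * δ ^ 6 * e ^ 2
          + 9 * δ ^ 5 * e ^ 3 + 82 * δ ^ 4 * e ^ 4) * hq
    have h4 : e ^ 2 * (Δ * (Δ + 40 * (δ ^ 2) ^ 3)) = e ^ 2 * 0 := by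
      linear_combination (Δ * e + 40 * e * δ ^ 6 + δ ^ 5 * (δ ^ 2 - 11 * δ * e - e ^ 2)) * hΔe
        + δ ^ 4 * hR
    exact mul_left_cancel₀ he2 h4

/-- The symmetric quantity `S = ((x3-x1)^3 M(x2) - (x3-x2)^3 M(x1)) / (x2 - x1)` written as a
polynomial in `s = x1 + x2`, `q = x1 * x2`. -/
def Sval (b2 b4 b6 s q x3 : K) : K :=
  4 * s ^ 2 * x3 ^ 3 + s ^ 2 * b6 - 12 * s * q * x3 ^ 2 + 2 * s * q * b4 + s * x3 ^ 3 * b2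
    - 3 * s * x3 * b6 + 12 * q ^ 2 * x3 + q ^ 2 * b2 - 4 * q * x3 ^ 3 - 3 * q * x3 ^ 2 * b2
    - 6 * q * x3 * b4 - q * b6 + 2 * x3 ^ 3 * b4 + 3 * x3 ^ 2 * b6

/-- Discriminant in terms of b-invariants. -/
def Dval (b2 b4 b6 b8 : K) : K :=
  -(b2 ^ 2) * b8 - 8 * b4 ^ 3 - 27 * b6 ^ 2 + 9 * b2 * b4 * b6

theorem core_identities (b2 b4 b6 b8 x1 x2 x3 : K) (hb : 4 * b8 = b2 * b6 - b4 ^ 2)
    (hne : x1 ≠ x2)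
    (h1 : x1 ^ 4 - b4 * x1 ^ 2 - 2 * b6 * x1 - b8
      = x2 * (4 * x1 ^ 3 + b2 * x1 ^ 2 + 2 * b4 * x1 + b6))
    (h2 : x2 ^ 4 - b4 * x2 ^ 2 - 2 * b6 * x2 - b8
      = x1 * (4 * x2 ^ 3 + b2 * x2 ^ 2 + 2 * b4 * x2 + b6))
    (h3 : 3 * x3 ^ 4 + b2 * x3 ^ 3 + 3 * b4 * x3 ^ 2 + 3 * b6 * x3 + b8 = 0)
    (s q d Q S Δ c4 : K) (hs : s = x1 + x2) (hq : q = x1 * x2)
    (hd : d = s ^ 2 - 4 * q) (hQ : Q = x3 ^ 2 - s * x3 + q)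
    (hS : S = Sval b2 b4 b6 s q x3) (hΔ : Δ = Dval b2 b4 b6 b8)
    (hc4 : c4 = b2 ^ 2 - 24 * b4) :
    c4 * d ^ 5 = Δ ^ 2 + 10 * Δ * d ^ 3 + 5 * d ^ 6 ∧
    S ^ 2 = Q ^ 3 * (9 * Q - 4 * d) * d ∧
    Q ≠ 0 ∧ d ≠ 0 ∧
    (4 * Q + d = 0 → 2 * Δ + 25 * d ^ 3 = 0) ∧
    (9 * Q = 4 * d → 8 * Δ + 25 * d ^ 3 = 0) ∧
    (Q = d → Δ * (Δ + 10 * d ^ 3) = 0) ∧
    (9 * Q + d = 0 → Δ * (Δ + 40 * d ^ 3) = 0) := by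
  -- translated coordinates (opaque names, so that `ring` does not unfold them)
  obtain ⟨δ, hδdef⟩ : ∃ δ : K, δ = x2 - x1 := ⟨_, rfl⟩
  obtain ⟨ξ, hξdef⟩ : ∃ ξ : K, ξ = x3 - x1 := ⟨_, rfl⟩
  have hδ : δ ≠ 0 := by rw [hδdef]; exact sub_ne_zero.mpr (Ne.symm hne)
  obtain ⟨B2, hB2def⟩ : ∃ B2 : K, B2 = b2 + 12 * x1 := ⟨_, rfl⟩
  obtain ⟨B4, hB4def⟩ : ∃ B4 : K, B4 = b4 + x1 * b2 + 6 * x1 ^ 2 := ⟨_, rfl⟩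
  obtain ⟨B6, hB6def⟩ : ∃ B6 : K, B6 = 4 * x1 ^ 3 + b2 * x1 ^ 2 + 2 * b4 * x1 + b6 := ⟨_, rfl⟩
  obtain ⟨B8, hB8def⟩ : ∃ B8 : K,
    B8 = 3 * x1 ^ 4 + b2 * x1 ^ 3 + 3 * b4 * x1 ^ 2 + 3 * b6 * x1 + b8 := ⟨_, rfl⟩
  have hx2 : x2 = x1 + δ := by rw [hδdef]; ring
  have hx3 : x3 = x1 + ξ := by rw [hξdef]; ring
  subst hx2 hx3
  have r1 : B8 = -(δ * B6) := by
    rw [hB8def, hB6def]; linear_combination -h1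
  have r2' : δ * (δ ^ 3 - B4 * δ - B6) = 0 := by
    have r1' := r1
    rw [hB8def, hB6def] at r1'
    rw [hB4def, hB6def]
    linear_combination h2 + r1'
  have r2 : δ ^ 3 - B4 * δ - B6 = 0 := (mul_eq_zero.mp r2').resolve_left hδ
  have rb : 4 * B8 = B2 * B6 - B4 ^ 2 := by
    rw [hB8def, hB2def, hB6def, hB4def]; linear_combination hb
  -- Tate parameter
  have hδ2 : δ ^ 2 ≠ 0 := pow_ne_zero 2 hδ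
  obtain ⟨e, hB6⟩ : ∃ e : K, B6 = δ ^ 2 * e := ⟨B6 / δ ^ 2, by field_simp⟩
  have hB4 : B4 = δ * (δ - e) := by
    have : δ * B4 = δ * (δ * (δ - e)) := by
      linear_combination -r2 - hB6
    exact mul_left_cancel₀ hδ this
  have hB8 : B8 = -(δ ^ 3 * e) := by rw [r1, hB6]; ring
  have he : e ≠ 0 := by
    intro he0
    have h6 : B6 = 0 := by rw [hB6, he0]; ring
    have h8 : B8 = 0 := by rw [hB8, he0]; ring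
    have h4 : B4 = δ ^ 2 := by rw [hB4, he0]; ring
    have : δ ^ 4 = 0 := by
      have := rb
      rw [h6, h8, h4] at this
      linear_combination this
    exact pow_ne_zero 4 hδ this
  have hB2 : B2 * e = δ ^ 2 - 6 * δ * e + e ^ 2 := by
    have : δ ^ 2 * (B2 * e) = δ ^ 2 * (δ ^ 2 - 6 * δ * e + e ^ 2) := by
      have := rb
      rw [hB6, hB4, hB8] at this
      linear_combination -this
    exact mul_left_cancel₀ hδ2 this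
  have e4 : b4 + x1 * b2 + 6 * x1 ^ 2 = δ * (δ - e) := by rw [← hB4def]; exact hB4
  have e6 : 4 * x1 ^ 3 + b2 * x1 ^ 2 + 2 * b4 * x1 + b6 = δ ^ 2 * e := by
    rw [← hB6def]; exact hB6
  have e8 : 3 * x1 ^ 4 + b2 * x1 ^ 3 + 3 * b4 * x1 ^ 2 + 3 * b6 * x1 + b8 = -(δ ^ 3 * e) := by
    rw [← hB8def]; exact hB8
  have hψ : 3 * ξ ^ 4 + B2 * ξ ^ 3 + 3 * (δ * (δ - e)) * ξ ^ 2 + 3 * (δ ^ 2 * e) * ξ
      + -(δ ^ 3 * e) = 0 := by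
    rw [hB2def]
    linear_combination h3 - 3 * ξ ^ 2 * e4 - 3 * ξ * e6 - e8
  have hc4' : c4 = B2 ^ 2 - 24 * (δ * (δ - e)) := by
    rw [hc4, hB2def]
    linear_combination -24 * e4
  have hΔ' : Δ = -(B2 ^ 2) * (-(δ ^ 3 * e)) - 8 * (δ * (δ - e)) ^ 3 - 27 * (δ ^ 2 * e) ^ 2
      + 9 * B2 * (δ * (δ - e)) * (δ ^ 2 * e) := by
    have hinv : Dval b2 b4 b6 b8 = -(B2 ^ 2) * B8 - 8 * B4 ^ 3 - 27 * B6 ^ 2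
        + 9 * B2 * B4 * B6 := by
      rw [hB2def, hB4def, hB6def, hB8def, Dval]
      linear_combination (36 * x1 ^ 2 + 6 * x1 * b2) * hb
    rw [hΔ, hinv, hB4, hB6, hB8]
  have hS' : S * δ = ξ ^ 3 * (4 * δ ^ 3 + B2 * δ ^ 2 + 2 * (δ * (δ - e)) * δ + δ ^ 2 * e)
      - (ξ - δ) ^ 3 * (δ ^ 2 * e) := by
    rw [hS, Sval, hs, hq, hB2def]
    linear_combination (2 * δ * ξ ^ 3) * e4 + (ξ ^ 3 - (ξ - δ) ^ 3) * e6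
  obtain ⟨T1, T2, T3, TA, TB, TC, TD⟩ :=
    tate_identities δ e ξ B2 hδ he hB2 hψ c4 Δ S hc4' hΔ' hS'
  have hd' : d = δ ^ 2 := by rw [hd, hs, hq]; ring
  have hQ' : Q = ξ * (ξ - δ) := by rw [hQ, hs, hq]; ring
  rw [hd', hQ']
  exact ⟨T1, T2, T3, hδ2, TA, TB, TC, TD⟩

end Core

end Fermat.Agent.S51.H158
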