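import Mathlib
import Fermat.Agent.S51.H158.Core
import Fermat.Prelude.Def_FLTPrelim_Modularity

/-!
# S51: from the algebraic core to a contradiction with semistability

Inputs (as hypotheses, to be supplied by the torsion/Galois part and by the descent part):
* a rational root `x3` of the 3-division polynomial,
* a 2-cycle `x1 ≠ x2` of the duplication map over a field `K` of characteristic zero with
  rational `x1 + x2`, `x1 * x2`,
* the list of rational points of `y^2 = x (x+9) (x-16)`.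
-/

set_option autoImplicit false

namespace Fermat.Agent.S51.H158

theorem five_dvd_of_rel {n m c4 Δ : ℤ} (h : n * Δ = m * c4 ^ 3) (hm : ¬ (5 : ℤ) ∣ m)
    (n' : ℤ) (hn' : ¬ (5 : ℤ) ∣ n') (hn : n = 5 * n' ∨ n = 25 * n') :
    (5 : ℤ) ∣ Δ ∧ (5 : ℤ) ∣ c4 := by
  have hp : Prime (5 : ℤ) := Int.prime_iff_natAbs_prime.mpr (by norm_num)
  have h5n : (5 : ℤ) ∣ n := by
    rcases hn with hn | hn
    · exact ⟨n', hn⟩
    · exact ⟨5 * n', by rw [hn]; ring⟩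
  have h1 : (5 : ℤ) ∣ m * c4 ^ 3 := by
    rw [← h]; exact Dvd.dvd.mul_right h5n Δ
  have h2 : (5 : ℤ) ∣ c4 ^ 3 := (hp.dvd_or_dvd h1).resolve_left hm
  have h3 : (5 : ℤ) ∣ c4 := hp.dvd_of_dvd_pow h2
  refine ⟨?_, h3⟩
  obtain ⟨k, hk⟩ := h3
  rcases hn with hn | hn
  · -- 5 n' Δ = m * 125 k^3  =>  n' Δ = 25 m k^3
    have h4 : n' * Δ = 5 * (5 * m * k ^ 3) := by
      have : (5 : ℤ) * (n' * Δ) = 5 * (5 * (5 * m * k ^ 3)) := by
        rw [hn, hk] at h; linear_combination h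
      exact mul_left_cancel₀ (by norm_num) this
    have h5 : (5 : ℤ) ∣ n' * Δ := ⟨_, h4⟩
    exact (hp.dvd_or_dvd h5).resolve_left hn'
  · have h4 : n' * Δ = 5 * (m * k ^ 3) := by
      have : (25 : ℤ) * (n' * Δ) = 25 * (5 * (m * k ^ 3)) := by
        rw [hn, hk] at h; linear_combination h
      exact mul_left_cancel₀ (by norm_num) this
    have h5 : (5 : ℤ) ∣ n' * Δ := ⟨_, h4⟩
    exact (hp.dvd_or_dvd h5).resolve_left hn'

/-- From `c4 d^5 = Δ^2 + 10 Δ d^3 + 5 d^6` and `Δ = h d^3` (with `h = a / b`) we get the integral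
relation `(b (a^2 + 10 a b + 5 b^2))^3 ... `; we only need the four concrete instances. -/
theorem rel_of_h {c4 Δ : ℤ} {d : ℚ} (hd : d ≠ 0)
    (T1 : (c4 : ℚ) * d ^ 5 = (Δ : ℚ) ^ 2 + 10 * Δ * d ^ 3 + 5 * d ^ 6)
    (a b : ℤ) (hb : b ≠ 0) (hh : (b : ℚ) * Δ = a * d ^ 3) :
    (a ^ 2 + 10 * a * b + 5 * b ^ 2) ^ 3 * b * Δ = a * b ^ 6 * c4 ^ 3 := by
  have hbq : (b : ℚ) ≠ 0 := by exact_mod_cast hb
  -- c4 * b^2 = (a^2 + 10 a b + 5 b^2) * d
  have h1 : (c4 : ℚ) * b ^ 2 = ((a : ℚ) ^ 2 + 10 * a * b + 5 * b ^ 2) * d := by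
    have : d ^ 5 * ((c4 : ℚ) * b ^ 2) = d ^ 5 * (((a : ℚ) ^ 2 + 10 * a * b + 5 * b ^ 2) * d) := by
      linear_combination (b : ℚ) ^ 2 * T1 + ((b : ℚ) * Δ + a * d ^ 3 + 10 * b * d ^ 3) * hh
    exact mul_left_cancel₀ (pow_ne_zero 5 hd) this
  have h2 : (((a : ℚ) ^ 2 + 10 * a * b + 5 * b ^ 2) ^ 3 * b * Δ : ℚ)
      = a * b ^ 6 * c4 ^ 3 := by
    have e1 : ((c4 : ℚ) * b ^ 2) ^ 3 = (((a : ℚ) ^ 2 + 10 * a * b + 5 * b ^ 2) * d) ^ 3 := by
      rw [h1]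
    linear_combination ((a : ℚ) ^ 2 + 10 * a * b + 5 * b ^ 2) ^ 3 * hh - (a : ℚ) * e1
  exact_mod_cast h2

theorem core_false (b2 b4 b6 b8 c4 Δ : ℤ)
    (hb : 4 * b8 = b2 * b6 - b4 ^ 2)
    (hc4 : c4 = b2 ^ 2 - 24 * b4)
    (hΔ : Δ = -(b2 ^ 2) * b8 - 8 * b4 ^ 3 - 27 * b6 ^ 2 + 9 * b2 * b4 * b6)
    (hΔ0 : Δ ≠ 0) (hss : (5 : ℤ) ∣ Δ → ¬ (5 : ℤ) ∣ c4)
    (descent : ∀ x y : ℚ, y ^ 2 = x * (x + 9) * (x - 16) →
      x = 0 ∨ x = -9 ∨ x = 16 ∨ x = -4 ∨ x = 36)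
    {K : Type*} [Field K] [CharZero K]
    (x3 s q : ℚ) (x1 x2 : K)
    (h3 : 3 * x3 ^ 4 + (b2 : ℚ) * x3 ^ 3 + 3 * (b4 : ℚ) * x3 ^ 2 + 3 * (b6 : ℚ) * x3
      + (b8 : ℚ) = 0)
    (hs : x1 + x2 = (s : K)) (hq : x1 * x2 = (q : K)) (hne : x1 ≠ x2)
    (h1 : x1 ^ 4 - (b4 : K) * x1 ^ 2 - 2 * (b6 : K) * x1 - (b8 : K)
      = x2 * (4 * x1 ^ 3 + (b2 : K) * x1 ^ 2 + 2 * (b4 : K) * x1 + (b6 : K)))
    (h2 : x2 ^ 4 - (b4 : K) * x2 ^ 2 - 2 * (b6 : K) * x2 - (b8 : K)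
      = x1 * (4 * x2 ^ 3 + (b2 : K) * x2 ^ 2 + 2 * (b4 : K) * x2 + (b6 : K))) :
    False := by
  -- rational quantities
  obtain ⟨d, hd⟩ : ∃ d : ℚ, d = s ^ 2 - 4 * q := ⟨_, rfl⟩
  obtain ⟨Q, hQ⟩ : ∃ Q : ℚ, Q = x3 ^ 2 - s * x3 + q := ⟨_, rfl⟩
  obtain ⟨S, hS⟩ : ∃ S : ℚ, S = Sval (b2 : ℚ) b4 b6 s q x3 := ⟨_, rfl⟩
  have hbK : 4 * (b8 : K) = (b2 : K) * b6 - (b4 : K) ^ 2 := by exact_mod_cast congrArg (Int.cast : ℤ → K) hb
  have h3K : 3 * (x3 : K) ^ 4 + (b2 : K) * (x3 : K) ^ 3 + 3 * (b4 : K) * (x3 : K) ^ 2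
      + 3 * (b6 : K) * (x3 : K) + (b8 : K) = 0 := by
    have := congrArg (Rat.cast : ℚ → K) h3
    push_cast at this
    exact this
  obtain ⟨T1, T2, hQ0, hd0, TA, TB, TC, TD⟩ :=
    core_identities (b2 : K) b4 b6 b8 x1 x2 (x3 : K) hbK hne h1 h2 h3K
      (s : K) (q : K) (d : K) (Q : K) (S : K) (Δ : K) (c4 : K) hs.symm hq.symm
      (by rw [hd]; push_cast; ring) (by rw [hQ]; push_cast; ring)
      (by rw [hS, Sval, Sval]; push_cast; ring)
      (by rw [hΔ, Dval]; push_cast; ring) (by rw [hc4]; push_cast; ring)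
  -- transfer to ℚ
  have T1q : (c4 : ℚ) * d ^ 5 = (Δ : ℚ) ^ 2 + 10 * Δ * d ^ 3 + 5 * d ^ 6 := by
    exact_mod_cast T1
  have T2q : S ^ 2 = Q ^ 3 * (9 * Q - 4 * d) * d := by exact_mod_cast T2
  have hQ0q : Q ≠ 0 := by
    intro h; apply hQ0; rw [h]; simp
  have hd0q : d ≠ 0 := by
    intro h; apply hd0; rw [h]; simp
  have TAq : 4 * Q + d = 0 → 2 * (Δ : ℚ) + 25 * d ^ 3 = 0 := by
    intro h
    have := TA (by exact_mod_cast congrArg (Rat.cast : ℚ → K) h)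
    exact_mod_cast this
  have TBq : 9 * Q = 4 * d → 8 * (Δ : ℚ) + 25 * d ^ 3 = 0 := by
    intro h
    have := TB (by exact_mod_cast congrArg (Rat.cast : ℚ → K) h)
    exact_mod_cast this
  have TCq : Q = d → (Δ : ℚ) * (Δ + 10 * d ^ 3) = 0 := by
    intro h
    have := TC (by exact_mod_cast congrArg (Rat.cast : ℚ → K) h)
    exact_mod_cast this
  have TDq : 9 * Q + d = 0 → (Δ : ℚ) * (Δ + 40 * d ^ 3) = 0 := by
    intro h
    have := TD (by exact_mod_cast congrArg (Rat.cast : ℚ → K) h)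
    exact_mod_cast this
  have hΔq : (Δ : ℚ) ≠ 0 := by exact_mod_cast hΔ0
  -- the rational point on 15a1
  have hsq : (2 * x3 - s) ^ 2 = 4 * Q + d := by rw [hQ, hd]; ring
  have hpt : (36 * (2 * x3 - s) * S / (Q * d ^ 2)) ^ 2
      = (36 * Q / d) * (36 * Q / d + 9) * (36 * Q / d - 16) := by
    field_simp
    linear_combination 36 * (2 * x3 - s) ^ 2 * T2q
      + 36 * Q ^ 3 * (9 * Q - 4 * d) * d * hsq
  have key : ∀ (a b : ℤ), b ≠ 0 → (b : ℚ) * Δ = a * d ^ 3 →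
      (a ^ 2 + 10 * a * b + 5 * b ^ 2) ^ 3 * b * Δ = a * b ^ 6 * c4 ^ 3 :=
    fun a b hb0 hh => rel_of_h hd0q T1q a b hb0 hh
  have fin : ∀ {n m : ℤ}, n * Δ = m * c4 ^ 3 → ¬ (5 : ℤ) ∣ m → ∀ n' : ℤ, ¬ (5 : ℤ) ∣ n' →
      (n = 5 * n' ∨ n = 25 * n') → False := by
    intro n m h hm n' hn' hn
    obtain ⟨hΔ5, hc5⟩ := five_dvd_of_rel h hm n' hn' hn
    exact hss hΔ5 hc5
  rcases descent _ _ hpt with hx | hx | hx | hx | hx
  · -- x = 0
    have : Q = 0 := by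
      have h36 : 36 * Q / d = 0 := hx
      have := (div_eq_zero_iff.mp h36).resolve_right hd0q
      linarith
    exact hQ0q this
  · -- x = -9
    have h' : 4 * Q + d = 0 := by
      have h36 : 36 * Q / d = -9 := hx
      rw [div_eq_iff hd0q] at h36
      linarith
    have hrel := TAq h'
    have := key (-25) 2 (by norm_num) (by push_cast; linarith)
    -- ((-25)^2 + 10*(-25)*2 + 5*4)^3 * 2 * Δ = -25 * 64 * c4^3
    have h5 : (121945 : ℤ) * Δ = (-32) * c4 ^ 3 := by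
      have : (50 : ℤ) * (121945 * Δ) = 50 * ((-32) * c4 ^ 3) := by
        linear_combination this
      exact mul_left_cancel₀ (by norm_num) this
    exact fin h5 (by norm_num) 24389 (by norm_num) (Or.inl (by norm_num))
  · -- x = 16
    have h' : 9 * Q = 4 * d := by
      have h36 : 36 * Q / d = 16 := hx
      rw [div_eq_iff hd0q] at h36
      linarith
    have hrel := TBq h'
    have := key (-25) 8 (by norm_num) (by push_cast; linarith)
    have h5 : (46969655 : ℤ) * Δ = 32768 * c4 ^ 3 := by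
      have : (-200 : ℤ) * (46969655 * Δ) = (-200) * (32768 * c4 ^ 3) := by
        linear_combination this
      exact mul_left_cancel₀ (by norm_num) this
    exact fin h5 (by norm_num) 9393931 (by norm_num) (Or.inl (by norm_num))
  · -- x = -4
    have h' : 9 * Q + d = 0 := by
      have h36 : 36 * Q / d = -4 := hx
      rw [div_eq_iff hd0q] at h36
      linarith
    have hrel := (mul_eq_zero.mp (TDq h')).resolve_left hΔq
    have := key (-40) 1 (by norm_num) (by push_cast; linarith)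
    have h5 : (349938025 : ℤ) * Δ = (-8) * c4 ^ 3 := by
      have : (5 : ℤ) * (349938025 * Δ) = 5 * ((-8) * c4 ^ 3) := by
        linear_combination this
      exact mul_left_cancel₀ (by norm_num) this
    exact fin h5 (by norm_num) 13997521 (by norm_num) (Or.inr (by norm_num))
  · -- x = 36
    have h' : Q = d := by
      have h36 : 36 * Q / d = 36 := hx
      rw [div_eq_iff hd0q] at h36
      linarith
    have hrel := (mul_eq_zero.mp (TCq h')).resolve_left hΔq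
    have := key (-10) 1 (by norm_num) (by push_cast; linarith)
    have h5 : (25 : ℤ) * Δ = (-2) * c4 ^ 3 := by
      have : (5 : ℤ) * (25 * Δ) = 5 * ((-2) * c4 ^ 3) := by
        linear_combination this
      exact mul_left_cancel₀ (by norm_num) this
    exact fin h5 (by norm_num) 1 (by norm_num) (Or.inr (by norm_num))

end Fermat.Agent.S51.H158
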